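import Mathlib
import Fermat.Agent.RED.H17_FF

/-!
# S27, package RR-DUAL (helper52), part 1: repartitions (adeles) of a function field

`K` a field, `F / K` a function field with the facts `RED.H17.FFHyp K F` (all places of degree
one, principal divisors, ...).  Universe-polymorphic.

* `finite_poles` : an adele has finitely many poles; `exists_mem_AD` : every adele lies in some
  `A(D)`, `D ≥ B`;
* `sgl v x` : the adele with the only component `x` at `v`; `cst f` : the principal adele of `f`;
* `AD_succ_le` : `A(D + v) ≤ A(D) + K · sgl v u` if `ord_v u = - D(v) - 1`;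
* `sgl_mem_sup_of_L`, `sgl_not_mem_sup_of_L` : `sgl v u ∈ A(D) + F` iff `L(D + v) ≠ L(D)`.
-/

set_option autoImplicit false
set_option linter.style.haveILetI false
set_option linter.unusedSectionVars false

noncomputable section

open AlgebraicCurve

attribute [local instance] Classical.propDecidable

namespace Fermat.Agent.S27.RR.H52

open Fermat.Agent.RED Fermat.Agent.RED.H51 Fermat.Agent.RED.H17

variable {K F : Type*} [Field K] [Field F] [Algebra K F]

local notation "L" => riemannRochSpace

/-- The ring of repartitions (adeles) of `F / K`. -/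
abbrev Adele (K F : Type*) [Field K] [Field F] [Algebra K F] : Type _ := ↥(repartitions K F)

theorem mem_AD_iff {D : Divisor K F} {α : Adele K F} :
    α ∈ repartitionsOf D ↔ ∀ v : Place K F, OrdGe v (-D v) ((α : Place K F → F) v) :=
  mem_repartitionsOf_iff

theorem mem_L_iff' {D : Divisor K F} {f : F} :
    f ∈ L D ↔ ∀ v : Place K F, OrdGe v (-D v) f :=
  mem_riemannRochSpace_iff

theorem ordGe_zero_of_not_neg (v : Place K F) {x : F} (h : ¬ v.ord x < 0) : OrdGe v 0 x :=
  Or.inr (not_lt.mp h)

theorem not_neg_of_ordGe_zero (v : Place K F) {x : F} (h : OrdGe v 0 x) : ¬ v.ord x < 0 := by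
  rcases h with rfl | h
  · simp
  · exact not_lt.mpr h

/-- Every adele has finitely many poles. -/
theorem finite_poles (H : HasPrincipalDivisors K F) (α : Adele K F) :
    {v : Place K F | v.ord ((α : Place K F → F) v) < 0}.Finite := by
  obtain ⟨a, ha⟩ := α
  show {v : Place K F | v.ord (a v) < 0}.Finite
  induction ha using Algebra.adjoin_induction with
  | mem x hx =>
    have e : {v : Place K F | v.ord (x v) < 0}
        = {v : Place K F | ¬ v.adicValuation (x v) ≤ 1} :=
      Set.ext fun v => (v.not_adicValuation_le_one_iff).symm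
    rw [e]
    exact hx
  | algebraMap f =>
    by_cases hf : f = 0
    · subst hf
      refine Set.Finite.subset Set.finite_empty fun v hv => ?_
      have hv' : v.ord (0 : F) < 0 := hv
      simp at hv'
    · obtain ⟨D, hD, -⟩ := H.exists_divisor f hf
      refine D.support.finite_toSet.subset fun v hv => ?_
      have hv' : v.ord f < 0 := hv
      rw [Finset.mem_coe, Finsupp.mem_support_iff, hD v]
      omega
  | add x y _ _ ihx ihy =>
    refine (ihx.union ihy).subset fun v hv => ?_
    by_contra hcon
    rw [Set.mem_union, not_or] at hcon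
    have h1 := ordGe_zero_of_not_neg v hcon.1
    have h2 := ordGe_zero_of_not_neg v hcon.2
    exact not_neg_of_ordGe_zero v (h1.add h2) hv
  | mul x y _ _ ihx ihy =>
    refine (ihx.union ihy).subset fun v hv => ?_
    by_contra hcon
    rw [Set.mem_union, not_or] at hcon
    have h1 := ordGe_zero_of_not_neg v hcon.1
    have h2 := ordGe_zero_of_not_neg v hcon.2
    have h3 := h1.mul h2
    rw [add_zero] at h3
    exact not_neg_of_ordGe_zero v h3 hv

/-- Every adele lies in `A(D)` for some `D ≥ B`. -/
theorem exists_mem_AD (H : HasPrincipalDivisors K F) (α : Adele K F) (B : Divisor K F) :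
    ∃ D : Divisor K F, B ≤ D ∧ α ∈ repartitionsOf D := by
  set S : Finset (Place K F) := (finite_poles H α).toFinset ∪ B.support with hS
  have hsupp : ∀ v : Place K F,
      max (B v) (-v.ord ((α : Place K F → F) v)) ≠ 0 → v ∈ S := by
    intro v hv
    rw [hS, Finset.mem_union, Set.Finite.mem_toFinset, Set.mem_ofPred_eq, Finsupp.mem_support_iff]
    by_contra hcon
    rw [not_or, not_not, not_lt] at hcon
    apply hv
    rw [hcon.2]
    exact max_eq_left (by omega)
  refine ⟨Finsupp.onFinset S (fun v => max (B v) (-v.ord ((α : Place K F → F) v))) hsupp,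
    ?_, ?_⟩
  · rw [Finsupp.le_def]
    intro v
    rw [Finsupp.onFinset_apply]
    exact le_max_left _ _
  · rw [mem_AD_iff]
    intro v
    right
    rw [Finsupp.onFinset_apply]
    have := le_max_right (B v) (-v.ord ((α : Place K F → F) v))
    omega

/-! ### Special adeles -/

/-- The adele with component `x` at `v` and `0` elsewhere. -/
def sgl (v : Place K F) (x : F) : Adele K F :=
  ⟨fun w => if w = v then x else 0, mem_repartitions_of_finite_ord (by
    refine (Set.finite_singleton v).subset fun w hw => ?_
    rw [Set.mem_ofPred_eq] at hw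
    rw [Set.mem_singleton_iff]
    by_contra hne
    rw [if_neg hne] at hw
    simp at hw)⟩

theorem sgl_apply (v w : Place K F) (x : F) :
    ((sgl v x : Adele K F) : Place K F → F) w = if w = v then x else 0 := rfl

theorem sgl_apply_self (v : Place K F) (x : F) :
    ((sgl v x : Adele K F) : Place K F → F) v = x := by
  rw [sgl_apply, if_pos rfl]

theorem sgl_apply_ne {v w : Place K F} (h : w ≠ v) (x : F) :
    ((sgl v x : Adele K F) : Place K F → F) w = 0 := by
  rw [sgl_apply, if_neg h]

theorem sgl_mem_AD_iff (v : Place K F) (x : F) (D : Divisor K F) :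
    sgl v x ∈ repartitionsOf D ↔ OrdGe v (-D v) x := by
  rw [mem_AD_iff]
  constructor
  · intro h
    have := h v
    rwa [sgl_apply_self] at this
  · intro h w
    by_cases hw : w = v
    · subst hw
      rwa [sgl_apply_self]
    · rw [sgl_apply_ne hw]
      exact ordGe_zero _ _

/-- The principal adele of `f`. -/
def cst (f : F) : Adele K F := algebraMap F (Adele K F) f

theorem cst_apply (f : F) (v : Place K F) : ((cst f : Adele K F) : Place K F → F) v = f := rfl

theorem cst_mem_principal (f : F) : (cst f : Adele K F) ∈ principalRepartitions K F :=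
  mem_principalRepartitions_iff.mpr ⟨f, rfl⟩

theorem exists_cst_of_mem_principal {φ : Adele K F} (h : φ ∈ principalRepartitions K F) :
    ∃ f : F, φ = cst f := by
  obtain ⟨f, hf⟩ := mem_principalRepartitions_iff.mp h
  exact ⟨f, Subtype.ext hf⟩

theorem cst_mem_AD_iff (f : F) (D : Divisor K F) :
    (cst f : Adele K F) ∈ repartitionsOf D ↔ f ∈ L D := by
  rw [mem_AD_iff, mem_L_iff']
  rfl

theorem coe_sub_smul (α β : Adele K F) (c : K) (w : Place K F) :
    ((α - c • β : Adele K F) : Place K F → F) w
      = (α : Place K F → F) w - c • (β : Place K F → F) w := rfl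

theorem coe_add' (α β : Adele K F) (w : Place K F) :
    ((α + β : Adele K F) : Place K F → F) w
      = (α : Place K F → F) w + (β : Place K F → F) w := rfl

theorem coe_sub' (α β : Adele K F) (w : Place K F) :
    ((α - β : Adele K F) : Place K F → F) w
      = (α : Place K F → F) w - (β : Place K F → F) w := rfl

theorem single_add_le (D : Divisor K F) (v : Place K F) : D ≤ D + Finsupp.single v 1 := by
  rw [Finsupp.le_def]
  intro w
  rw [Finsupp.add_apply, Finsupp.single_apply]
  split_ifs <;> omega

theorem add_single_apply_ne (D : Divisor K F) {v w : Place K F} (h : w ≠ v) :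
    (D + Finsupp.single v 1 : Divisor K F) w = D w := by
  rw [Finsupp.add_apply, Finsupp.single_apply, if_neg (Ne.symm h), add_zero]

theorem add_single_apply_self (D : Divisor K F) (v : Place K F) :
    (D + Finsupp.single v 1 : Divisor K F) v = D v + 1 := by
  rw [Finsupp.add_apply, Finsupp.single_apply, if_pos rfl]

/-- **One step**: `A(D + v) ≤ A(D) + K · sgl v u` for `u` of order `-D(v) - 1` at `v`. -/
theorem AD_succ_le (v : Place K F) (hdeg : v.deg = 1) (D : Divisor K F) {u : F} (hu : u ≠ 0)
    (hord : v.ord u = -D v - 1) :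
    repartitionsOf (D + Finsupp.single v 1)
      ≤ repartitionsOf D ⊔ Submodule.span K {sgl v u} := by
  intro α hα
  rw [mem_AD_iff] at hα
  set a : F := (α : Place K F → F) v with ha
  have hav : OrdGe v (-(D v + 1)) a := by
    have := hα v
    rwa [add_single_apply_self] at this
  -- the value of `a / u` at `v`
  have hreg : RegAt v (a / u) := by
    rw [regAt_iff_ord]
    rcases hav with h0 | h
    · left
      rw [h0, zero_div]
    · by_cases ha0 : a = 0
      · left
        rw [ha0, zero_div]
      · right
        rw [H17.ord_div v ha0 hu, hord]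
        omega
  obtain ⟨c, hc⟩ := exists_value v hdeg hreg
  rw [vanAt_iff_ord] at hc
  have hkey : OrdGe v (-D v) (a - c • u) := by
    have e : a - c • u = u * (a / u - algebraMap K F c) := by
      rw [Algebra.smul_def]
      field_simp
    rw [e]
    rcases hc with h0 | h
    · left
      rw [h0, mul_zero]
    · right
      have hne : a / u - algebraMap K F c ≠ 0 := by
        intro h0
        rw [h0] at h
        simp at h
      rw [Place.ord_mul v hu hne, hord]
      omega
  have hmem : α - c • sgl v u ∈ repartitionsOf D := by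
    rw [mem_AD_iff]
    intro w
    rw [coe_sub_smul]
    by_cases hw : w = v
    · subst hw
      rw [sgl_apply_self]
      exact hkey
    · rw [sgl_apply_ne hw, smul_zero, sub_zero]
      have := hα w
      rwa [add_single_apply_ne D hw] at this
  have e : α = (α - c • sgl v u) + c • sgl v u := by abel
  rw [e]
  exact Submodule.add_mem_sup hmem
    (Submodule.smul_mem _ c (Submodule.mem_span_singleton_self _))

theorem sgl_mem_AD_succ (v : Place K F) (D : Divisor K F) {u : F}
    (hord : v.ord u = -D v - 1) : sgl v u ∈ repartitionsOf (D + Finsupp.single v 1) := by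
  rw [sgl_mem_AD_iff, add_single_apply_self]
  right
  omega

theorem sgl_not_mem_AD (v : Place K F) (D : Divisor K F) {u : F} (hu : u ≠ 0)
    (hord : v.ord u = -D v - 1) : sgl v u ∉ repartitionsOf D := by
  rw [sgl_mem_AD_iff]
  rintro (h | h)
  · exact hu h
  · omega

/-- If `L(D + v) ≠ L(D)` then `sgl v u ∈ A(D) + F`. -/
theorem sgl_mem_sup_of_L (v : Place K F) (hdeg : v.deg = 1) (D : Divisor K F) {u : F}
    (hu : u ≠ 0) (hord : v.ord u = -D v - 1) {f : F} (hf : f ∈ L (D + Finsupp.single v 1))
    (hfD : f ∉ L D) :
    sgl v u ∈ repartitionsOf D ⊔ principalRepartitions K F := by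
  have h1 : (cst f : Adele K F) ∈ repartitionsOf (D + Finsupp.single v 1) :=
    (cst_mem_AD_iff f _).mpr hf
  obtain ⟨α₀, hα₀, y, hy, hsum⟩ := Submodule.mem_sup.mp (AD_succ_le v hdeg D hu hord h1)
  obtain ⟨c, rfl⟩ := Submodule.mem_span_singleton.mp hy
  have hc : c ≠ 0 := by
    rintro rfl
    rw [zero_smul, add_zero] at hsum
    apply hfD
    rw [← cst_mem_AD_iff, ← hsum]
    exact hα₀
  have e : sgl v u = c⁻¹ • (cst f - α₀) := by
    rw [← hsum, add_sub_cancel_left, smul_smul, inv_mul_cancel₀ hc, one_smul]
  rw [e]
  refine Submodule.smul_mem _ _ (Submodule.sub_mem _ ?_ ?_)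
  · exact Submodule.mem_sup_right (cst_mem_principal f)
  · exact Submodule.mem_sup_left hα₀

/-- If `L(D + v) = L(D)` then `sgl v u ∉ A(D) + F`. -/
theorem sgl_not_mem_sup_of_L (v : Place K F) (D : Divisor K F) {u : F}
    (hu : u ≠ 0) (hord : v.ord u = -D v - 1) (hL : L (D + Finsupp.single v 1) ≤ L D) :
    sgl v u ∉ repartitionsOf D ⊔ principalRepartitions K F := by
  intro h
  obtain ⟨α₀, hα₀, φ, hφ, hsum⟩ := Submodule.mem_sup.mp h
  obtain ⟨f, rfl⟩ := exists_cst_of_mem_principal hφ
  have h1 : (cst f : Adele K F) ∈ repartitionsOf (D + Finsupp.single v 1) := by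
    have e : (cst f : Adele K F) = sgl v u - α₀ := by
      rw [← hsum, add_sub_cancel_left]
    rw [e]
    exact Submodule.sub_mem _ (sgl_mem_AD_succ v D hord)
      (repartitionsOf_mono (single_add_le D v) hα₀)
  have h2 : (cst f : Adele K F) ∈ repartitionsOf D :=
    (cst_mem_AD_iff f D).mpr (hL ((cst_mem_AD_iff f _).mp h1))
  apply sgl_not_mem_AD v D hu hord
  rw [← hsum]
  exact Submodule.add_mem _ hα₀ h2

end Fermat.Agent.S27.RR.H52
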