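import Mathlib
import Fermat.Agent.S27.RR.H52_Adele

/-!
# S27, package RR-DUAL (helper52), part 2: `dim H¹(D) = l(D) - deg D - 1 + g`

`F / K` with `FFHyp K F` and Riemann's theorem `IsGenus K F g c`.  Stichtenoth 1.5.4:

* `quot_step` : linear algebra of one step `N ≤ N' ≤ N + K β`;
* `h1_step` : `H¹(D + v)` finite of dimension `i(D + v)` implies the same for `D`;
* `sup_eq_top_of_idx_zero` : `A(B) + F = A` if `l(B) = deg B + 1 - g`;
* **`finrank_H1`** : `H¹(D)` is finite dimensional of dimension `l(D) - deg D - 1 + g`;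
* **`genusFF_eq`** : `genusFF K F = g`.
-/

set_option autoImplicit false
set_option linter.style.haveILetI false
set_option linter.unusedSectionVars false

noncomputable section

open AlgebraicCurve

attribute [local instance] Classical.propDecidable

namespace Fermat.Agent.S27.RR.H52

open Fermat.Agent.RED Fermat.Agent.RED.H51 Fermat.Agent.RED.H17

local notation "L" => riemannRochSpace

section LA

variable {K M : Type*} [Field K] [AddCommGroup M] [Module K M]

/-- One step of a filtration: `N ≤ N' ≤ N + K β`, `β ∈ N'`. -/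
theorem quot_step (N N' : Submodule K M) (β : M) (h1 : N ≤ N')
    (h2 : N' ≤ N ⊔ Submodule.span K {β}) (hβ : β ∈ N') (hfin : Module.Finite K (M ⧸ N')) :
    Module.Finite K (M ⧸ N) ∧
      Module.finrank K (M ⧸ N) = Module.finrank K (M ⧸ N') + (if β ∈ N then 0 else 1) := by
  set P : Submodule K (M ⧸ N) := N'.map N.mkQ with hP
  have hPspan : P = Submodule.span K {N.mkQ β} := by
    apply le_antisymm
    · rw [hP, Submodule.map_le_iff_le_comap]
      intro x hx
      obtain ⟨n, hn, y, hy, rfl⟩ := Submodule.mem_sup.mp (h2 hx)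
      obtain ⟨c, rfl⟩ := Submodule.mem_span_singleton.mp hy
      rw [Submodule.mem_comap, map_add, map_smul]
      have h0 : N.mkQ n = 0 := by
        rw [Submodule.mkQ_apply]
        exact (Submodule.Quotient.mk_eq_zero N).mpr hn
      rw [h0, zero_add]
      exact Submodule.smul_mem _ c (Submodule.mem_span_singleton_self _)
    · rw [Submodule.span_le, Set.singleton_subset_iff]
      exact Submodule.mem_map_of_mem hβ
  have e := Submodule.quotientQuotientEquivQuotient N N' h1
  haveI : Module.Finite K ((M ⧸ N) ⧸ P) := Module.Finite.equiv e.symm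
  haveI : Module.Finite K P := by
    rw [hPspan]
    infer_instance
  haveI hQ : Module.Finite K (M ⧸ N) := Module.Finite.of_submodule_quotient P
  refine ⟨hQ, ?_⟩
  have h3 := Submodule.finrank_quotient_add_finrank P
  rw [← h3, LinearEquiv.finrank_eq e]
  congr 1
  rw [hPspan]
  split_ifs with hb
  · have h0 : N.mkQ β = 0 := by
      rw [Submodule.mkQ_apply]
      exact (Submodule.Quotient.mk_eq_zero N).mpr hb
    rw [h0, Submodule.span_zero_singleton, finrank_bot]
  · refine finrank_span_singleton fun h0 => hb ?_
    rw [Submodule.mkQ_apply] at h0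
    exact (Submodule.Quotient.mk_eq_zero N).mp h0

end LA

variable {K F : Type*} [Field K] [Field F] [Algebra K F]

/-- The index of speciality predicted by Riemann's theorem. -/
def idx (g : ℕ) (D : Divisor K F) : ℤ :=
  (Module.finrank K (L D) : ℤ) - Divisor.degree D - 1 + g

/-- `A(D) + F`. -/
abbrev NN (D : Divisor K F) : Submodule K (Adele K F) :=
  repartitionsOf D ⊔ principalRepartitions K F

theorem idx_nonneg {g : ℕ} {c : ℤ} (hg : IsGenus K F g c) (D : Divisor K F) : 0 ≤ idx g D := by
  have := (hg D).1
  unfold idx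
  omega

theorem idx_eq_zero {g : ℕ} {c : ℤ} (hg : IsGenus K F g c) {D : Divisor K F}
    (hD : c ≤ Divisor.degree D) : idx g D = 0 := by
  have := (hg D).2 hD
  unfold idx
  omega

theorem degree_add_single (H : FFHyp K F) (D : Divisor K F) (v : Place K F) :
    Divisor.degree (D + Finsupp.single v 1) = Divisor.degree D + 1 := by
  rw [map_add, Divisor.degree_single, H.deg_one v]
  simp

/-- `l(D) ≤ l(D + v) ≤ l(D) + 1`, and `L(D + v) = L(D)` iff the dimensions agree. -/
theorem finrank_succ (H : FFHyp K F) (D : Divisor K F) (v : Place K F) :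
    (L (D + Finsupp.single v 1) ≤ L D ∧
        Module.finrank K (L (D + Finsupp.single v 1)) = Module.finrank K (L D)) ∨
      (¬ L (D + Finsupp.single v 1) ≤ L D ∧
        Module.finrank K (L (D + Finsupp.single v 1)) = Module.finrank K (L D) + 1) := by
  haveI := H.finite D
  haveI := H.finite (D + Finsupp.single v 1)
  have hle : L D ≤ L (D + Finsupp.single v 1) := H42.L_mono (single_add_le D v)
  by_cases h : L (D + Finsupp.single v 1) ≤ L D
  · left
    exact ⟨h, by rw [le_antisymm h hle]⟩
  · right
    refine ⟨h, ?_⟩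
    have hlt : L D < L (D + Finsupp.single v 1) := lt_of_le_of_ne hle fun e => h (by rw [e])
    have h1 := Submodule.finrank_lt_finrank_of_lt hlt
    have h2 := H.finrank_add_single_le D v
    omega

/-- **One step down**: from `D + v` to `D`. -/
theorem h1_step (H : FFHyp K F) (g : ℕ) (D : Divisor K F) (v : Place K F)
    (h : Module.Finite K (H1 (D + Finsupp.single v 1)) ∧
      (Module.finrank K (H1 (D + Finsupp.single v 1)) : ℤ) = idx g (D + Finsupp.single v 1)) :
    Module.Finite K (H1 D) ∧ (Module.finrank K (H1 D) : ℤ) = idx g D := by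
  obtain ⟨u, hu, hord⟩ := exists_ord_eq v (-D v - 1)
  have h1 : NN D ≤ NN (D + Finsupp.single v 1) :=
    sup_le_sup_right (repartitionsOf_mono (single_add_le D v)) _
  have h2 : NN (D + Finsupp.single v 1) ≤ NN D ⊔ Submodule.span K {sgl v u} := by
    refine sup_le ?_ (le_sup_of_le_left le_sup_right)
    exact (AD_succ_le v (H.deg_one v) D hu hord).trans (sup_le_sup_right le_sup_left _)
  have hβ : sgl v u ∈ NN (D + Finsupp.single v 1) :=
    Submodule.mem_sup_left (sgl_mem_AD_succ v D hord)
  obtain ⟨hfin, hrk⟩ := quot_step (NN D) (NN (D + Finsupp.single v 1)) (sgl v u) h1 h2 hβ h.1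
  refine ⟨hfin, ?_⟩
  have hdeg := degree_add_single H D v
  have hidx := h.2
  unfold idx at hidx ⊢
  rw [hdeg] at hidx
  rcases finrank_succ H D v with ⟨hL, hl⟩ | ⟨hL, hl⟩
  · have hnot : sgl v u ∉ NN D := sgl_not_mem_sup_of_L v D hu hord hL
    rw [if_neg hnot] at hrk
    have hrk' : (Module.finrank K (H1 D) : ℤ)
        = Module.finrank K (H1 (D + Finsupp.single v 1)) + 1 := by exact_mod_cast hrk
    rw [hl] at hidx
    omega
  · obtain ⟨f, hf, hfD⟩ := SetLike.not_le_iff_exists.mp hL
    have hmem : sgl v u ∈ NN D := sgl_mem_sup_of_L v (H.deg_one v) D hu hord hf hfD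
    rw [if_pos hmem, add_zero] at hrk
    have hrk' : (Module.finrank K (H1 D) : ℤ)
        = Module.finrank K (H1 (D + Finsupp.single v 1)) := by exact_mod_cast hrk
    rw [hl] at hidx
    push_cast at hidx
    omega

/-- The index does not increase. -/
theorem idx_succ_le (H : FFHyp K F) (g : ℕ) (D : Divisor K F) (v : Place K F) :
    idx g (D + Finsupp.single v 1) ≤ idx g D := by
  unfold idx
  rw [degree_add_single H D v]
  rcases finrank_succ H D v with ⟨-, hl⟩ | ⟨-, hl⟩ <;> rw [hl] <;> push_cast <;> omega

/-- `A(D') ≤ A(B) + F` for `D' ≥ B` if `i(B) = 0`. -/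
theorem AD_le_of_idx_zero (H : FFHyp K F) {g : ℕ} {c : ℤ} (hg : IsGenus K F g c) :
    ∀ (m : ℕ) (B D' : Divisor K F), B ≤ D' → Divisor.degree D' - Divisor.degree B ≤ m →
      idx g B = 0 → repartitionsOf D' ≤ NN B ∧ idx g D' = 0 := by
  intro m
  induction m with
  | zero =>
    intro B D' h hm hB
    rcases H42.eq_or_exists_lt h with rfl | ⟨v, hv⟩
    · exact ⟨le_sup_left, hB⟩
    · exfalso
      have h1 := H42.degree_mono (H42.le_sub_single h hv)
      rw [map_sub, Divisor.degree_single, H.deg_one v] at h1
      simp only [Nat.cast_zero] at hm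
      simp only [one_mul, Nat.cast_one] at h1
      omega
  | succ m ih =>
    intro B D' h hm hB
    rcases H42.eq_or_exists_lt h with rfl | ⟨v, hv⟩
    · exact ⟨le_sup_left, hB⟩
    · have hle := H42.le_sub_single h hv
      set D'' : Divisor K F := D' - Finsupp.single v 1 with hD''
      have hD' : D' = D'' + Finsupp.single v 1 := by rw [hD'', sub_add_cancel]
      have hdeg' : Divisor.degree D'' = Divisor.degree D' - 1 := by
        rw [hD'', map_sub, Divisor.degree_single, H.deg_one v]
        simp
      obtain ⟨hA, hi⟩ := ih B D'' hle (by rw [hdeg']; push_cast at hm; omega) hB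
      have hi' : idx g D' = 0 := by
        have h1 := idx_succ_le H g D'' v
        rw [← hD', hi] at h1
        exact le_antisymm h1 (idx_nonneg hg D')
      refine ⟨?_, hi'⟩
      obtain ⟨u, hu, hord⟩ := exists_ord_eq v (-D'' v - 1)
      -- `l(D') = l(D'') + 1`
      have hnot : ¬ L (D'' + Finsupp.single v 1) ≤ L D'' := by
        rcases finrank_succ H D'' v with ⟨-, hl⟩ | ⟨hL, -⟩
        · exfalso
          have e1 := hi
          have e2 := hi'
          rw [hD'] at e2
          unfold idx at e1 e2
          rw [degree_add_single H D'' v, hl] at e2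
          omega
        · exact hL
      obtain ⟨f, hf, hfD⟩ := SetLike.not_le_iff_exists.mp hnot
      have hmem : sgl v u ∈ NN D'' := sgl_mem_sup_of_L v (H.deg_one v) D'' hu hord hf hfD
      have hNN : NN D'' ≤ NN B := sup_le hA le_sup_right
      rw [hD']
      refine (AD_succ_le v (H.deg_one v) D'' hu hord).trans (sup_le (le_sup_left.trans hNN) ?_)
      rw [Submodule.span_le, Set.singleton_subset_iff]
      exact hNN hmem

/-- `A(B) + F = A` if `l(B) = deg B + 1 - g`. -/
theorem sup_eq_top_of_idx_zero (H : FFHyp K F) {g : ℕ} {c : ℤ} (hg : IsGenus K F g c)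
    {B : Divisor K F} (hB : idx g B = 0) : NN B = ⊤ := by
  rw [eq_top_iff]
  intro α _
  obtain ⟨D', hBD, hα⟩ := exists_mem_AD H.principal α B
  exact (AD_le_of_idx_zero H hg _ B D' hBD (Int.self_le_toNat _) hB).1 hα

theorem exists_place (H : FFHyp K F) : Nonempty (Place K F) := by
  obtain ⟨x, hx⟩ := H.transc
  have hnr : x ∉ Set.range (algebraMap K F) := by
    rintro ⟨b, rfl⟩
    exact hx (isAlgebraic_algebraMap _)
  obtain ⟨v, -⟩ := H.exists_zero hnr
  exact ⟨v⟩

/-- **`dim H¹(D) = l(D) - deg D - 1 + g`** (Stichtenoth 1.5.4). -/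
theorem finrank_H1 (H : FFHyp K F) {g : ℕ} {c : ℤ} (hg : IsGenus K F g c) (D : Divisor K F) :
    Module.Finite K (H1 D) ∧
      (Module.finrank K (H1 D) : ℤ)
        = (Module.finrank K (L D) : ℤ) - Divisor.degree D - 1 + g := by
  obtain ⟨v⟩ := exists_place H
  have key : ∀ (n : ℕ) (D : Divisor K F), c ≤ Divisor.degree D + n →
      Module.Finite K (H1 D) ∧ (Module.finrank K (H1 D) : ℤ) = idx g D := by
    intro n
    induction n with
    | zero =>
      intro D hD
      have hi : idx g D = 0 := idx_eq_zero hg (by simpa using hD)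
      have htop : NN D = ⊤ := sup_eq_top_of_idx_zero H hg hi
      have hsub : Subsingleton (H1 D) := by
        show Subsingleton (Adele K F ⧸ NN D)
        rw [Submodule.Quotient.subsingleton_iff, htop]
      refine ⟨inferInstance, ?_⟩
      rw [hi, Module.finrank_zero_of_subsingleton]
      rfl
    | succ n ih =>
      intro D hD
      refine h1_step H g D v (ih (D + Finsupp.single v 1) ?_)
      rw [degree_add_single H D v]
      push_cast at hD
      omega
  have hn : c ≤ Divisor.degree D + ((c - Divisor.degree D).toNat : ℕ) := by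
    have := Int.self_le_toNat (c - Divisor.degree D)
    omega
  exact key _ D hn

theorem finrank_L_zero (H : FFHyp K F) : Module.finrank K (L (0 : Divisor K F)) = 1 := by
  apply le_antisymm H.finrank_L_zero_le
  haveI := H.finite (0 : Divisor K F)
  have hle : Submodule.span K {(1 : F)} ≤ L (0 : Divisor K F) := by
    rw [Submodule.span_le, Set.singleton_subset_iff]
    exact one_mem_L_of_nonneg (fun _ => le_rfl)
  have := Submodule.finrank_mono hle
  rwa [finrank_span_singleton one_ne_zero] at this

/-- **The genus of the prelude is Riemann's genus.** -/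
theorem genusFF_eq (H : FFHyp K F) {g : ℕ} {c : ℤ} (hg : IsGenus K F g c) :
    genusFF K F = g := by
  have h := (finrank_H1 H hg (0 : Divisor K F)).2
  rw [finrank_L_zero H, map_zero] at h
  unfold genusFF
  have : (Module.finrank K (H1 (0 : Divisor K F)) : ℤ) = g := by
    rw [h]; simp
  exact_mod_cast this

end Fermat.Agent.S27.RR.H52
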