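import Mathlib
import Fermat.Agent.S27.RR.H52_H1

/-!
# S27, package RR-DUAL (helper52), part 3: Weil differentials

`F / K` with `FFHyp K F` and Riemann's theorem `IsGenus K F g c`.  Stichtenoth 1.5.6 - 1.5.10:

* `Om D` : the `K`-space of Weil differentials vanishing on `A(D) + F`; `finrank_Om` : its
  dimension is `l(D) - deg D - 1 + g`;
* `actW ω x` : the differential `x ω`; `actW_mem_Om_iff` : `x ω ∈ Ω(D) ↔ ω ∈ Ω(D - (x))`;
* `exists_actW_eq` : the Weil differentials form a one-dimensional `F`-space;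
* `exists_canonical` : a nonzero differential `ω` has a divisor `W`: `ω ∈ Ω(D) ↔ D ≤ W`.
-/

set_option autoImplicit false
set_option linter.style.haveILetI false
set_option linter.unusedSectionVars false

noncomputable section

open AlgebraicCurve

attribute [local instance] Classical.propDecidable

namespace Fermat.Agent.S27.RR.H52

open Fermat.Agent.RED Fermat.Agent.RED.H51 Fermat.Agent.RED.H17

local notation "L" => riemannRochSpace

variable {K F : Type*} [Field K] [Field F] [Algebra K F]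

/-! ### The spaces `Ω(D)` -/

/-- The Weil differentials vanishing on `A(D) + F`. -/
def Om (D : Divisor K F) : Submodule K (Module.Dual K (Adele K F)) := (NN D).dualAnnihilator

theorem mem_Om_iff {D : Divisor K F} {ω : Module.Dual K (Adele K F)} :
    ω ∈ Om D ↔ (∀ α ∈ repartitionsOf D, ω α = 0) ∧ ∀ f : F, ω (cst f) = 0 := by
  unfold Om NN
  rw [Submodule.dualAnnihilator_sup_eq, Submodule.mem_inf, Submodule.mem_dualAnnihilator,
    Submodule.mem_dualAnnihilator]
  refine and_congr Iff.rfl ⟨fun h f => h _ (cst_mem_principal f), fun h φ hφ => ?_⟩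
  obtain ⟨f, rfl⟩ := exists_cst_of_mem_principal hφ
  exact h f

theorem Om_anti {D D' : Divisor K F} (h : D ≤ D') : Om D' ≤ Om D :=
  Submodule.dualAnnihilator_anti (sup_le_sup_right (repartitionsOf_mono h) _)

/-- **`dim Ω(D) = l(D) - deg D - 1 + g`**. -/
theorem finrank_Om (H : FFHyp K F) {g : ℕ} {c : ℤ} (hg : IsGenus K F g c) (D : Divisor K F) :
    Module.Finite K (Om D) ∧ (Module.finrank K (Om D) : ℤ) = idx g D := by
  obtain ⟨hfin, hrk⟩ := finrank_H1 H hg D
  haveI := hfin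
  have e : Module.Dual K (H1 D) ≃ₗ[K] Om D := Submodule.dualQuotEquivDualAnnihilator (NN D)
  refine ⟨Module.Finite.equiv e, ?_⟩
  rw [← LinearEquiv.finrank_eq e, Subspace.dual_finrank_eq, hrk]
  rfl

/-! ### The action of `F` -/

/-- Multiplication by `x ∈ F` on the adeles. -/
def mulA (x : F) : Adele K F →ₗ[K] Adele K F := LinearMap.mulLeft K (cst x)

theorem mulA_apply (x : F) (α : Adele K F) (v : Place K F) :
    ((mulA x α : Adele K F) : Place K F → F) v = x * (α : Place K F → F) v := rfl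

theorem mulA_mulA (x y : F) (α : Adele K F) : mulA x (mulA y α) = mulA (x * y) α := by
  apply Subtype.ext
  funext v
  rw [mulA_apply, mulA_apply, mulA_apply, mul_assoc]

theorem mulA_one (α : Adele K F) : mulA (1 : F) α = α := by
  apply Subtype.ext
  funext v
  rw [mulA_apply, one_mul]

theorem mulA_inv_cancel {x : F} (hx : x ≠ 0) (α : Adele K F) : mulA x (mulA x⁻¹ α) = α := by
  rw [mulA_mulA, mul_inv_cancel₀ hx, mulA_one]

theorem mulA_cst (x f : F) : mulA x (cst f : Adele K F) = cst (x * f) := by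
  apply Subtype.ext
  funext v
  rw [mulA_apply, cst_apply, cst_apply]

theorem mulA_add (x y : F) (α : Adele K F) : mulA (x + y) α = mulA x α + mulA y α := by
  apply Subtype.ext
  funext v
  rw [coe_add', mulA_apply, mulA_apply, mulA_apply, add_mul]

theorem mulA_smul (c : K) (x : F) (α : Adele K F) : mulA (c • x) α = c • mulA x α := by
  apply Subtype.ext
  funext v
  show (c • x) * (α : Place K F → F) v = c • (x * (α : Place K F → F) v)
  rw [smul_mul_assoc]

/-- If `ord_v x ≥ D(v) - D'(v)` for all `v`, then `x A(D) ⊆ A(D')`. -/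
theorem mulA_mem_AD {x : F} {D D' : Divisor K F} (h : ∀ v, OrdGe v (D v - D' v) x)
    {α : Adele K F} (hα : α ∈ repartitionsOf D) : mulA x α ∈ repartitionsOf D' := by
  rw [mem_AD_iff] at hα ⊢
  intro v
  rw [mulA_apply]
  have := (h v).mul (hα v)
  rwa [show D v - D' v + -D v = -D' v by ring] at this

/-- The differential `x ω`, as a `K`-linear map in `x`. -/
def actW (ω : Module.Dual K (Adele K F)) : F →ₗ[K] Module.Dual K (Adele K F) where
  toFun x := ω ∘ₗ mulA x
  map_add' x y := by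
    apply LinearMap.ext
    intro α
    rw [LinearMap.add_apply, LinearMap.comp_apply, LinearMap.comp_apply, LinearMap.comp_apply,
      mulA_add, map_add]
  map_smul' c x := by
    apply LinearMap.ext
    intro α
    rw [RingHom.id_apply, LinearMap.smul_apply, LinearMap.comp_apply, LinearMap.comp_apply,
      mulA_smul, map_smul]

theorem actW_apply (ω : Module.Dual K (Adele K F)) (x : F) (α : Adele K F) :
    actW ω x α = ω (mulA x α) := rfl

theorem actW_actW (ω : Module.Dual K (Adele K F)) (x y : F) :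
    actW (actW ω x) y = actW ω (x * y) := by
  apply LinearMap.ext
  intro α
  rw [actW_apply, actW_apply, actW_apply, mulA_mulA]

theorem actW_one (ω : Module.Dual K (Adele K F)) : actW ω 1 = ω := by
  apply LinearMap.ext
  intro α
  rw [actW_apply, mulA_one]

theorem actW_mem_Om {x : F} {E : Divisor K F} (hE : ∀ v, E v = v.ord x)
    {D : Divisor K F} {ω : Module.Dual K (Adele K F)} (h : ω ∈ Om (D - E)) :
    actW ω x ∈ Om D := by
  rw [mem_Om_iff] at h ⊢
  refine ⟨fun α hα => ?_, fun f => ?_⟩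
  · rw [actW_apply]
    refine h.1 _ (mulA_mem_AD (D := D) (fun v => ?_) hα)
    right
    rw [Finsupp.sub_apply, hE v]
    omega
  · rw [actW_apply, mulA_cst]
    exact h.2 _

/-- **`x ω ∈ Ω(D) ↔ ω ∈ Ω(D - (x))`**. -/
theorem actW_mem_Om_iff {x : F} (hx : x ≠ 0) {E : Divisor K F} (hE : ∀ v, E v = v.ord x)
    {D : Divisor K F} {ω : Module.Dual K (Adele K F)} :
    actW ω x ∈ Om D ↔ ω ∈ Om (D - E) := by
  refine ⟨fun h => ?_, actW_mem_Om hE⟩
  have hE' : ∀ v, (-E) v = v.ord x⁻¹ := by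
    intro v
    rw [Finsupp.neg_apply, hE v, Place.ord_inv]
  have h1 := actW_mem_Om (D := D - E) hE' (ω := actW ω x)
    (by rwa [sub_neg_eq_add, sub_add_cancel])
  rwa [actW_actW, mul_inv_cancel₀ hx, actW_one] at h1

theorem actW_injective {ω : Module.Dual K (Adele K F)} (hω : ω ≠ 0) :
    Function.Injective (actW ω) := by
  rw [← LinearMap.ker_eq_bot, LinearMap.ker_eq_bot']
  intro x hx
  by_contra hx0
  apply hω
  apply LinearMap.ext
  intro α
  have := LinearMap.congr_fun hx (mulA x⁻¹ α)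
  rw [actW_apply, mulA_inv_cancel hx0] at this
  rw [this]
  rfl

/-! ### The differentials form a one-dimensional `F`-space -/

theorem hyp42 (H : FFHyp K F) : H42.Hyp K F where
  principal := fun f hf => H.principal.exists_divisor f hf
  deg_one := H.deg_one
  exists_pole := fun f hf => by
    by_contra hcon
    push Not at hcon
    obtain ⟨c, hc⟩ := H.const_of_regular hcon
    exact hf ⟨c, hc.symm⟩

theorem L_eq_bot_of_neg (H : FFHyp K F) {D : Divisor K F} (hD : Divisor.degree D < 0) :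
    L D = ⊥ :=
  H42.L_eq_bot_of_degree_neg (hyp42 H) hD

theorem finrank_L_of_neg (H : FFHyp K F) {D : Divisor K F} (hD : Divisor.degree D < 0) :
    Module.finrank K (L D) = 0 := by
  rw [L_eq_bot_of_neg H hD, finrank_bot]

/-- `x ω ∈ Ω(D)` for `x ∈ L(A - D)` and `ω ∈ Ω(A)`. -/
theorem actW_mem_Om_of_L (H : FFHyp K F) {A D : Divisor K F}
    {ω : Module.Dual K (Adele K F)} (hω : ω ∈ Om A) {x : F} (hx : x ∈ L (A - D)) :
    actW ω x ∈ Om D := by
  by_cases hx0 : x = 0
  · rw [hx0, map_zero]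
    exact Submodule.zero_mem _
  · obtain ⟨E, hE, -⟩ := H.principal.exists_divisor x hx0
    refine actW_mem_Om hE (Om_anti ?_ hω)
    rw [Finsupp.le_def]
    intro v
    have := ord_ge_of_mem_L hx hx0 v
    rw [Finsupp.sub_apply] at this ⊢
    rw [hE v]
    omega

theorem map_actW_le_Om (H : FFHyp K F) {A D : Divisor K F}
    {ω : Module.Dual K (Adele K F)} (hω : ω ∈ Om A) :
    (L (A - D)).map (actW ω) ≤ Om D := by
  rintro η ⟨x, hx, rfl⟩
  exact actW_mem_Om_of_L H hω hx

theorem finrank_map_actW (H : FFHyp K F) {ω : Module.Dual K (Adele K F)} (hω : ω ≠ 0)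
    (D : Divisor K F) :
    Module.Finite K ((L D).map (actW ω)) ∧
      Module.finrank K ((L D).map (actW ω)) = Module.finrank K (L D) := by
  haveI := H.finite D
  have e := Submodule.equivMapOfInjective (actW ω) (actW_injective hω) (L D)
  exact ⟨Module.Finite.equiv e, (LinearEquiv.finrank_eq e).symm⟩

/-- **The Weil differentials form a one-dimensional `F`-space** (Stichtenoth 1.5.9). -/
theorem exists_actW_eq (H : FFHyp K F) {g : ℕ} {c : ℤ} (hg : IsGenus K F g c)
    {ω₁ ω₂ : Module.Dual K (Adele K F)} {A₁ A₂ : Divisor K F} (hω₁ : ω₁ ≠ 0)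
    (h₁ : ω₁ ∈ Om A₁) (h₂ : ω₂ ∈ Om A₂) : ∃ z : F, ω₂ = actW ω₁ z := by
  by_cases hω₂ : ω₂ = 0
  · exact ⟨0, by rw [hω₂, map_zero]⟩
  obtain ⟨v₀⟩ := exists_place H
  set n : ℕ := (3 * (g : ℤ) - 2 - Divisor.degree A₁ - Divisor.degree A₂).toNat + 1 with hn
  have hn1 : 3 * (g : ℤ) - 2 - Divisor.degree A₁ - Divisor.degree A₂ < n := by
    have := Int.self_le_toNat (3 * (g : ℤ) - 2 - Divisor.degree A₁ - Divisor.degree A₂)
    rw [hn]
    push_cast
    omega
  have hn0 : (0 : ℤ) < n := by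
    rw [hn]
    push_cast
    omega
  set B : Divisor K F := Finsupp.single v₀ (n : ℤ) with hB
  have hdegB : Divisor.degree B = n := by
    rw [hB, Divisor.degree_single, H.deg_one v₀]
    simp
  -- the two subspaces
  set U₁ : Submodule K (Module.Dual K (Adele K F)) := (L (A₁ - (-B))).map (actW ω₁) with hU₁
  set U₂ : Submodule K (Module.Dual K (Adele K F)) := (L (A₂ - (-B))).map (actW ω₂) with hU₂
  have hle₁ : U₁ ≤ Om (-B) := map_actW_le_Om H h₁
  have hle₂ : U₂ ≤ Om (-B) := map_actW_le_Om H h₂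
  obtain ⟨hf₁, hr₁⟩ := finrank_map_actW H hω₁ (A₁ - (-B))
  obtain ⟨hf₂, hr₂⟩ := finrank_map_actW H hω₂ (A₂ - (-B))
  obtain ⟨hfO, hrO⟩ := finrank_Om H hg (-B)
  haveI : FiniteDimensional K U₁ := hf₁
  haveI : FiniteDimensional K U₂ := hf₂
  haveI := hfO
  have hsum := Submodule.finrank_sup_add_finrank_inf_eq U₁ U₂
  have hsup : Module.finrank K ↥(U₁ ⊔ U₂) ≤ Module.finrank K (Om (-B)) :=
    Submodule.finrank_mono (sup_le hle₁ hle₂)
  have hl₁ := (hg (A₁ - (-B))).1
  have hl₂ := (hg (A₂ - (-B))).1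
  have hd₁ : Divisor.degree (A₁ - (-B)) = Divisor.degree A₁ + n := by
    rw [map_sub, map_neg, hdegB]; ring
  have hd₂ : Divisor.degree (A₂ - (-B)) = Divisor.degree A₂ + n := by
    rw [map_sub, map_neg, hdegB]; ring
  have hO : (Module.finrank K (Om (-B)) : ℤ) = n - 1 + g := by
    rw [hrO]
    unfold idx
    rw [finrank_L_of_neg H (by rw [map_neg, hdegB]; omega), map_neg, hdegB]
    push_cast
    ring
  rw [hd₁] at hl₁
  rw [hd₂] at hl₂
  rw [← hU₁] at hr₁
  rw [← hU₂] at hr₂
  have hpos : 0 < Module.finrank K ↥(U₁ ⊓ U₂) := by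
    have e1 : (Module.finrank K ↥(U₁ ⊔ U₂) : ℤ) + Module.finrank K ↥(U₁ ⊓ U₂)
        = Module.finrank K U₁ + Module.finrank K U₂ := by exact_mod_cast hsum
    have e2 : (Module.finrank K ↥(U₁ ⊔ U₂) : ℤ) ≤ Module.finrank K (Om (-B)) := by
      exact_mod_cast hsup
    rw [hr₁, hr₂] at e1
    have : (0 : ℤ) < Module.finrank K ↥(U₁ ⊓ U₂) := by omega
    exact_mod_cast this
  have hne : U₁ ⊓ U₂ ≠ ⊥ := by
    intro hbot
    rw [hbot, finrank_bot] at hpos
    exact lt_irrefl _ hpos
  obtain ⟨η, hη, hη0'⟩ := (Submodule.ne_bot_iff _).mp hne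
  obtain ⟨⟨x₁, -, hx₁⟩, ⟨x₂, -, hx₂⟩⟩ := Submodule.mem_inf.mp hη
  have hx₂0 : x₂ ≠ 0 := by
    rintro rfl
    rw [map_zero] at hx₂
    exact hη0' hx₂.symm
  refine ⟨x₁ * x₂⁻¹, ?_⟩
  rw [← actW_actW, hx₁, ← hx₂, actW_actW, mul_inv_cancel₀ hx₂0, actW_one]

/-! ### The divisor of a differential -/

/-- A nonzero differential does not vanish on `A(D) + F` if `deg D ≥ c`. -/
theorem degree_lt_of_mem_Om (H : FFHyp K F) {g : ℕ} {c : ℤ} (hg : IsGenus K F g c)
    {ω : Module.Dual K (Adele K F)} (hω : ω ≠ 0) {D : Divisor K F} (h : ω ∈ Om D) :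
    Divisor.degree D < c := by
  by_contra hcon
  rw [not_lt] at hcon
  have htop : NN D = ⊤ := sup_eq_top_of_idx_zero H hg (idx_eq_zero hg hcon)
  apply hω
  apply LinearMap.ext
  intro α
  have hα : α ∈ NN D := by rw [htop]; exact Submodule.mem_top
  exact (Submodule.mem_dualAnnihilator ω).mp h α hα

/-- One more point: if `ω ∈ Ω(W)` and `ω ∈ Ω(D)` with `D(Q) > W(Q)`, then `ω ∈ Ω(W + Q)`. -/
theorem mem_Om_succ {ω : Module.Dual K (Adele K F)} {W D : Divisor K F} (hW : ω ∈ Om W)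
    (hD : ω ∈ Om D) {Q : Place K F} (hQ : W Q < D Q) : ω ∈ Om (W + Finsupp.single Q 1) := by
  rw [mem_Om_iff] at hW hD ⊢
  refine ⟨fun α hα => ?_, hW.2⟩
  rw [mem_AD_iff] at hα
  set a : F := (α : Place K F → F) Q with ha
  have h1 : α - sgl Q a ∈ repartitionsOf W := by
    rw [mem_AD_iff]
    intro v
    rw [coe_sub']
    by_cases hv : v = Q
    · subst hv
      rw [sgl_apply_self, ha, sub_self]
      exact ordGe_zero _ _
    · rw [sgl_apply_ne hv, sub_zero]
      have := hα v
      rwa [add_single_apply_ne W hv] at this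
  have h2 : sgl Q a ∈ repartitionsOf D := by
    rw [sgl_mem_AD_iff]
    have := hα Q
    rw [add_single_apply_self] at this
    exact this.mono (by omega)
  have e : α = (α - sgl Q a) + sgl Q a := by abel
  rw [e, map_add, hW.1 _ h1, hD.1 _ h2, add_zero]

/-- **The divisor of a nonzero Weil differential** (Stichtenoth 1.5.10). -/
theorem exists_canonical (H : FFHyp K F) {g : ℕ} {c : ℤ} (hg : IsGenus K F g c)
    {ω : Module.Dual K (Adele K F)} (hω : ω ≠ 0) {D₀ : Divisor K F} (h₀ : ω ∈ Om D₀) :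
    ∃ W : Divisor K F, ∀ D : Divisor K F, ω ∈ Om D ↔ D ≤ W := by
  have hbdd : ∃ b : ℤ, ∀ z : ℤ, (∃ D : Divisor K F, ω ∈ Om D ∧ Divisor.degree D = z) → z ≤ b := by
    refine ⟨c, ?_⟩
    rintro z ⟨D, hD, rfl⟩
    exact (degree_lt_of_mem_Om H hg hω hD).le
  obtain ⟨z, ⟨W, hW, rfl⟩, hmax⟩ := Int.exists_greatest_of_bdd hbdd ⟨_, D₀, h₀, rfl⟩
  refine ⟨W, fun D => ⟨fun hD => ?_, fun hD => Om_anti hD hW⟩⟩
  by_contra hcon
  rw [Finsupp.le_def] at hcon
  push Not at hcon
  obtain ⟨Q, hQ⟩ := hcon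
  have h1 := mem_Om_succ hW hD hQ
  have h2 := hmax _ ⟨_, h1, rfl⟩
  rw [degree_add_single H W Q] at h2
  omega

end Fermat.Agent.S27.RR.H52
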