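import Mathlib
import Fermat.Agent.S27.RR.H52_Weil

/-!
# S27, package RR-DUAL (helper52), part 4: duality and the Riemann-Roch theorem

`F / K` with `FFHyp K F` and Riemann's theorem `IsGenus K F g c`.  Stichtenoth 1.5.14 - 1.5.17:

* `Om_eq_map` : `Ω(D) = L(W - D) ω` for the divisor `W` of `ω ≠ 0` (duality);
* `IsCanonical g W` : `deg W = 2g - 2`, `l(W) = g` and `l(D) = deg D + 1 - g + l(W - D)`;
* **`riemann_roch`** : a canonical divisor exists;
* **`rr_sharp`** : `l(D) = deg D + 1 - g` if `deg D ≥ 2g - 1`;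
* `isGenus_sharp` : `IsGenus K F g (2g - 1)`;
* `stmt_GFF_holds` : `Char0.Stmt_GFF`-shaped statement (without the superfluous `IsAlgClosed`).
-/

set_option autoImplicit false
set_option linter.style.haveILetI false
set_option linter.unusedSectionVars false

noncomputable section

open AlgebraicCurve

attribute [local instance] Classical.propDecidable

namespace Fermat.Agent.S27.RR.H52

open Fermat.Agent.RED Fermat.Agent.RED.H51 Fermat.Agent.RED.H17

local notation "L" => riemannRochSpace

variable {K F : Type*} [Field K] [Field F] [Algebra K F]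

/-- There is a nonzero Weil differential. -/
theorem exists_ne_zero_Om (H : FFHyp K F) {g : ℕ} {c : ℤ} (hg : IsGenus K F g c) :
    ∃ (D : Divisor K F) (ω : Module.Dual K (Adele K F)), ω ∈ Om D ∧ ω ≠ 0 := by
  obtain ⟨v₀⟩ := exists_place H
  set D : Divisor K F := -Finsupp.single v₀ 2 with hD
  have hdeg : Divisor.degree D = -2 := by
    rw [hD, map_neg, Divisor.degree_single, H.deg_one v₀]
    simp
  obtain ⟨hfin, hrk⟩ := finrank_Om H hg D
  haveI := hfin
  have hpos : 0 < Module.finrank K (Om D) := by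
    have : (0 : ℤ) < Module.finrank K (Om D) := by
      rw [hrk]
      unfold idx
      rw [finrank_L_of_neg H (by rw [hdeg]; omega), hdeg]
      push_cast
      omega
    exact_mod_cast this
  have hne : Om D ≠ ⊥ := by
    intro hbot
    rw [hbot, finrank_bot] at hpos
    exact lt_irrefl _ hpos
  obtain ⟨ω, hω, hω0⟩ := (Submodule.ne_bot_iff _).mp hne
  exact ⟨D, ω, hω, hω0⟩

/-- **Duality** (Stichtenoth 1.5.14): `Ω(D) = L(W - D) ω`. -/
theorem Om_eq_map (H : FFHyp K F) {g : ℕ} {c : ℤ} (hg : IsGenus K F g c)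
    {ω : Module.Dual K (Adele K F)} (hω : ω ≠ 0) {W : Divisor K F}
    (hW : ∀ D : Divisor K F, ω ∈ Om D ↔ D ≤ W) (D : Divisor K F) :
    Om D = (L (W - D)).map (actW ω) := by
  have hωW : ω ∈ Om W := (hW W).mpr le_rfl
  apply le_antisymm
  · intro η hη
    obtain ⟨z, rfl⟩ := exists_actW_eq H hg hω hωW hη
    refine Submodule.mem_map_of_mem ?_
    by_cases hz : z = 0
    · rw [hz]
      exact Submodule.zero_mem _
    · obtain ⟨E, hE, -⟩ := H.principal.exists_divisor z hz
      have h1 := (hW _).mp ((actW_mem_Om_iff hz hE).mp hη)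
      rw [mem_L_iff']
      intro v
      right
      have h2 := Finsupp.le_def.mp h1 v
      rw [Finsupp.sub_apply, hE v] at h2
      rw [Finsupp.sub_apply]
      omega
  · exact map_actW_le_Om H hωW

/-- `dim Ω(D) = l(W - D)`. -/
theorem idx_eq_finrank (H : FFHyp K F) {g : ℕ} {c : ℤ} (hg : IsGenus K F g c)
    {ω : Module.Dual K (Adele K F)} (hω : ω ≠ 0) {W : Divisor K F}
    (hW : ∀ D : Divisor K F, ω ∈ Om D ↔ D ≤ W) (D : Divisor K F) :
    idx g D = Module.finrank K (L (W - D)) := by
  rw [← (finrank_Om H hg D).2, Om_eq_map H hg hω hW D, (finrank_map_actW H hω (W - D)).2]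

/-- `W` is a canonical divisor of `F / K` (of genus `g`). -/
def IsCanonical (g : ℕ) (W : Divisor K F) : Prop :=
  Divisor.degree W = 2 * (g : ℤ) - 2 ∧ Module.finrank K (L W) = g ∧
    ∀ D : Divisor K F, (Module.finrank K (L D) : ℤ)
      = Divisor.degree D + 1 - g + Module.finrank K (L (W - D))

/-- **The Riemann-Roch theorem** (Stichtenoth 1.5.15). -/
theorem riemann_roch (H : FFHyp K F) {g : ℕ} {c : ℤ} (hg : IsGenus K F g c) :
    ∃ W : Divisor K F, IsCanonical g W := by
  obtain ⟨D₀, ω, hω, hω0⟩ := exists_ne_zero_Om H hg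
  obtain ⟨W, hW⟩ := exists_canonical H hg hω0 hω
  have key : ∀ D : Divisor K F, (Module.finrank K (L D) : ℤ)
      = Divisor.degree D + 1 - g + Module.finrank K (L (W - D)) := by
    intro D
    have := idx_eq_finrank H hg hω0 hW D
    unfold idx at this
    omega
  have h0 := key 0
  rw [finrank_L_zero H, map_zero, sub_zero] at h0
  have hlW : (Module.finrank K (L W) : ℤ) = g := by
    push_cast at h0
    omega
  have h1 := key W
  rw [sub_self, finrank_L_zero H, hlW] at h1
  refine ⟨W, ?_, by exact_mod_cast hlW, key⟩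
  push_cast at h1
  omega

/-- **Riemann-Roch, sharp form** (Stichtenoth 1.5.17): `l(D) = deg D + 1 - g` if
`deg D ≥ 2g - 1`. -/
theorem rr_sharp (H : FFHyp K F) {g : ℕ} {c : ℤ} (hg : IsGenus K F g c) {D : Divisor K F}
    (hD : 2 * (g : ℤ) - 1 ≤ Divisor.degree D) :
    (Module.finrank K (L D) : ℤ) = Divisor.degree D + 1 - g := by
  obtain ⟨W, hdeg, -, key⟩ := riemann_roch H hg
  have h := key D
  have h0 : Module.finrank K (L (W - D)) = 0 :=
    finrank_L_of_neg H (by rw [map_sub, hdeg]; omega)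
  rw [h, h0]
  simp

/-- Riemann's theorem holds with the sharp bound `2g - 1`. -/
theorem isGenus_sharp (H : FFHyp K F) {g : ℕ} {c : ℤ} (hg : IsGenus K F g c) :
    IsGenus K F g (2 * (g : ℤ) - 1) :=
  fun D => ⟨(hg D).1, fun hD => rr_sharp H hg hD⟩

/-- The genus is unique. -/
theorem isGenus_unique (H : FFHyp K F) {g g' : ℕ} {c c' : ℤ} (hg : IsGenus K F g c)
    (hg' : IsGenus K F g' c') : g = g' := by
  rw [← genusFF_eq H hg, genusFF_eq H hg']

/-- `l(W - D) = 0` for `deg D > 2g - 2`; `l(D) ≥ deg D + 1 - g`; the index of speciality is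
`l(W - D)`: the package in one statement. -/
theorem finrank_L_canonical_sub (H : FFHyp K F) {g : ℕ} {W : Divisor K F}
    (hW : IsCanonical g W) {D : Divisor K F} (hD : 2 * (g : ℤ) - 2 < Divisor.degree D) :
    Module.finrank K (L (W - D)) = 0 :=
  finrank_L_of_neg H (by rw [map_sub, hW.1]; omega)

end Fermat.Agent.S27.RR.H52
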