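import Mathlib
import Fermat.Agent.S27.RR.H52_RR

/-!
# S27, package RR-DUAL (helper52), part 5: divisors of degree `0` and the canonical class

* `principal_of_mem_L` : `deg D = 0`, `0 ≠ x ∈ L(D)` implies `D = - div x`;
* `finrank_L_deg_zero` : `deg D = 0` implies `l(D) = 1` if `D` is principal, `l(D) = 0` otherwise;
* `finrank_L_principal_add` : `l(D + div f) = l(D)`;
* `canonical_class` : for `deg C = 2g - 2`: `l(C) = g` if `W - C` is principal, `l(C) = g - 1`
  otherwise (`W` canonical);
* `canonical_unique` : `deg W' = 2g - 2`, `l(W') ≥ g` implies `W - W'` principal;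
* `isCanonical_of_principal_sub` : a divisor linearly equivalent to a canonical one is canonical.
-/

set_option autoImplicit false
set_option linter.style.haveILetI false
set_option linter.unusedSectionVars false

noncomputable section

open AlgebraicCurve

attribute [local instance] Classical.propDecidable

namespace Fermat.Agent.S27.RR.H52

open Fermat.Agent.RED Fermat.Agent.RED.H51 Fermat.Agent.RED.H17

local notation "L" => riemannRochSpace

variable {K F : Type*} [Field K] [Field F] [Algebra K F]

/-- A divisor `E ≥ 0` of degree `0` is `0`. -/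
theorem eq_zero_of_nonneg_of_degree (H : FFHyp K F) {E : Divisor K F} (hE : 0 ≤ E)
    (hdeg : Divisor.degree E = 0) : E = 0 := by
  by_contra hne
  rcases H42.eq_or_exists_lt hE with h | ⟨v, hv⟩
  · exact hne h.symm
  · have h1 := H42.degree_mono (H42.le_sub_single hE hv)
    rw [map_zero, map_sub, Divisor.degree_single, H.deg_one v, hdeg] at h1
    simp at h1

/-- `deg D = 0` and `0 ≠ x ∈ L(D)`: then `D = - div x`. -/
theorem eq_neg_div_of_mem_L (H : FFHyp K F) {D : Divisor K F} (hdeg : Divisor.degree D = 0)
    {x : F} (hx : x ∈ L D) (hx0 : x ≠ 0) : ∀ v : Place K F, D v = -v.ord x := by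
  obtain ⟨E, hE, hE0⟩ := H.principal.exists_divisor x hx0
  have h1 : 0 ≤ D + E := by
    rw [Finsupp.le_def]
    intro v
    have := ord_ge_of_mem_L hx hx0 v
    rw [Finsupp.add_apply, hE v]
    simp only [Finsupp.coe_zero, Pi.zero_apply]
    omega
  have h2 := eq_zero_of_nonneg_of_degree H h1 (by rw [map_add, hdeg, hE0, add_zero])
  intro v
  have h3 := DFunLike.congr_fun h2 v
  rw [Finsupp.add_apply, hE v] at h3
  simp only [Finsupp.coe_zero, Pi.zero_apply] at h3
  omega

theorem principal_of_mem_L (H : FFHyp K F) {D : Divisor K F} (hdeg : Divisor.degree D = 0)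
    {x : F} (hx : x ∈ L D) (hx0 : x ≠ 0) : D ∈ Divisor.principal (K := K) (F := F) :=
  ⟨x⁻¹, inv_ne_zero hx0, fun v => by rw [Place.ord_inv, eq_neg_div_of_mem_L H hdeg hx hx0 v]⟩

/-- `l(D + div f) = l(D)`. -/
theorem finrank_L_add_principal (H : FFHyp K F) {D E : Divisor K F}
    (hE : E ∈ Divisor.principal (K := K) (F := F)) :
    Module.finrank K (L (D + E)) = Module.finrank K (L D) := by
  obtain ⟨f, hf, hEf⟩ := hE
  exact H42.finrank_L_add_principal (hyp42 H) hf hEf

/-- `l(D) = 1` for a principal divisor `D`. -/
theorem finrank_L_principal (H : FFHyp K F) {D : Divisor K F}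
    (hD : D ∈ Divisor.principal (K := K) (F := F)) : Module.finrank K (L D) = 1 := by
  have := finrank_L_add_principal H (D := 0) hD
  rwa [zero_add, finrank_L_zero H] at this

theorem degree_principal (H : FFHyp K F) {D : Divisor K F}
    (hD : D ∈ Divisor.principal (K := K) (F := F)) : Divisor.degree D = 0 := by
  obtain ⟨f, hf, hDf⟩ := hD
  obtain ⟨E, hE, hE0⟩ := H.principal.exists_divisor f hf
  have : D = E := by
    ext v
    rw [hDf v, hE v]
  rw [this, hE0]

/-- `deg D = 0`: `l(D) = 0` unless `D` is principal. -/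
theorem finrank_L_deg_zero (H : FFHyp K F) {D : Divisor K F} (hdeg : Divisor.degree D = 0)
    (hD : D ∉ Divisor.principal (K := K) (F := F)) : Module.finrank K (L D) = 0 := by
  have hbot : L D = ⊥ := by
    rw [eq_bot_iff]
    intro x hx
    rw [Submodule.mem_bot]
    by_contra hx0
    exact hD (principal_of_mem_L H hdeg hx hx0)
  rw [hbot, finrank_bot]

/-- The divisors of degree `2g - 2`: `l(C) = g` for `C ~ W`, `l(C) = g - 1` otherwise. -/
theorem canonical_class (H : FFHyp K F) {g : ℕ} {W : Divisor K F} (hW : IsCanonical g W)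
    {C : Divisor K F} (hC : Divisor.degree C = 2 * (g : ℤ) - 2) :
    (W - C ∈ Divisor.principal (K := K) (F := F) ∧ Module.finrank K (L C) = g) ∨
      (W - C ∉ Divisor.principal (K := K) (F := F) ∧
        (Module.finrank K (L C) : ℤ) = (g : ℤ) - 1) := by
  have h := hW.2.2 C
  have hdeg : Divisor.degree (W - C) = 0 := by rw [map_sub, hW.1, hC, sub_self]
  by_cases hp : W - C ∈ Divisor.principal (K := K) (F := F)
  · left
    refine ⟨hp, ?_⟩
    rw [finrank_L_principal H hp, hC] at h
    have : (Module.finrank K (L C) : ℤ) = g := by push_cast at h; omega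
    exact_mod_cast this
  · right
    refine ⟨hp, ?_⟩
    rw [finrank_L_deg_zero H hdeg hp, hC] at h
    push_cast at h
    omega

/-- **Uniqueness of the canonical class** (Stichtenoth 1.6.2). -/
theorem canonical_unique (H : FFHyp K F) {g : ℕ} {W : Divisor K F} (hW : IsCanonical g W)
    {W' : Divisor K F} (hdeg : Divisor.degree W' = 2 * (g : ℤ) - 2)
    (hl : g ≤ Module.finrank K (L W')) : W - W' ∈ Divisor.principal (K := K) (F := F) := by
  rcases canonical_class H hW hdeg with ⟨hp, -⟩ | ⟨-, h⟩
  · exact hp
  · exfalso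
    have : (g : ℤ) ≤ Module.finrank K (L W') := by exact_mod_cast hl
    omega

/-- A divisor linearly equivalent to a canonical divisor is canonical. -/
theorem isCanonical_of_principal_sub (H : FFHyp K F) {g : ℕ} {W : Divisor K F}
    (hW : IsCanonical g W) {W' : Divisor K F}
    (hp : W - W' ∈ Divisor.principal (K := K) (F := F)) : IsCanonical g W' := by
  have hdeg : Divisor.degree W' = 2 * (g : ℤ) - 2 := by
    have := degree_principal H hp
    rw [map_sub, hW.1] at this
    omega
  have key : ∀ D : Divisor K F,
      Module.finrank K (L (W' - D)) = Module.finrank K (L (W - D)) := by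
    intro D
    have := finrank_L_add_principal H (D := W' - D) hp
    rw [← this, show W' - D + (W - W') = W - D by abel]
  refine ⟨hdeg, ?_, fun D => ?_⟩
  · have := key 0
    rwa [sub_zero, sub_zero, hW.2.1] at this
  · rw [key D]
    exact hW.2.2 D

end Fermat.Agent.S27.RR.H52
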