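import Mathlib
import Fermat.Prelude.Def_AlgebraicCurve_BaseChangeGalois
import Fermat.Agent.S27.RR.H52_Canon

/-!
# S27, package RR-DUAL (helper52), part 6: semilinear automorphisms and `L(D)`

For `φ : SemilinearAut K F` (e.g. a Frobenius structure):

* `smul_mem_L_smul_iff` : `φ x ∈ L(φ D) ↔ x ∈ L(D)`;
* `LsmulEquiv φ D` : the additive bijection `L(D) ≃ L(φ D)`, semilinear (`LsmulEquiv_smul`);
* `finrank_L_smul` : `l(φ D) = l(D)`;
* `canonical_sub_smul_principal` : `W - φ W` is principal (the canonical class is invariant);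
* `isCanonical_smul` : `φ W` is canonical.
-/

set_option autoImplicit false
set_option linter.style.haveILetI false
set_option linter.unusedSectionVars false

noncomputable section

open AlgebraicCurve

attribute [local instance] Classical.propDecidable

namespace Fermat.Agent.S27.RR.H52

open Fermat.Agent.RED Fermat.Agent.RED.H51 Fermat.Agent.RED.H17

local notation "L" => riemannRochSpace

variable {K F : Type*} [Field K] [Field F] [Algebra K F]

theorem ordGe_smul_iff (φ : SemilinearAut K F) (v : Place K F) (n : ℤ) (x : F) :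
    OrdGe (φ • v) n (φ • x) ↔ OrdGe v n x := by
  unfold OrdGe
  rw [SemilinearAut.ord_smul, smul_eq_zero_iff_eq]

theorem smul_mem_L_smul_iff (φ : SemilinearAut K F) (D : Divisor K F) (x : F) :
    φ • x ∈ L (φ • D) ↔ x ∈ L D := by
  rw [mem_L_iff', mem_L_iff']
  constructor
  · intro h v
    have := h (φ • v)
    rwa [SemilinearAut.divisor_smul_apply_smul, ordGe_smul_iff] at this
  · intro h w
    have := h (φ⁻¹ • w)
    rw [← ordGe_smul_iff φ, smul_inv_smul] at this
    rwa [SemilinearAut.divisor_smul_apply]

theorem smul_smul_eq (φ : SemilinearAut K F) (c : K) (x : F) :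
    φ • (c • x) = SemilinearAut.baseAut φ c • (φ • x) := by
  rw [Algebra.smul_def, Algebra.smul_def, smul_mul', SemilinearAut.smul_algebraMap]

/-- The semilinear bijection `L(D) ≃ L(φ D)`. -/
def LsmulEquiv (φ : SemilinearAut K F) (D : Divisor K F) : L D ≃+ L (φ • D) where
  toFun x := ⟨φ • (x : F), (smul_mem_L_smul_iff φ D x).mpr x.2⟩
  invFun y := ⟨φ⁻¹ • (y : F), by
    rw [← smul_mem_L_smul_iff φ, smul_inv_smul]
    exact y.2⟩
  left_inv x := Subtype.ext (inv_smul_smul φ (x : F))
  right_inv y := Subtype.ext (smul_inv_smul φ (y : F))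
  map_add' x y := Subtype.ext (smul_add φ (x : F) (y : F))

theorem LsmulEquiv_coe (φ : SemilinearAut K F) (D : Divisor K F) (x : L D) :
    ((LsmulEquiv φ D x : L (φ • D)) : F) = φ • (x : F) := rfl

theorem LsmulEquiv_smul (φ : SemilinearAut K F) (D : Divisor K F) (c : K) (x : L D) :
    LsmulEquiv φ D (c • x) = SemilinearAut.baseAut φ c • LsmulEquiv φ D x :=
  Subtype.ext (smul_smul_eq φ c (x : F))

/-- **`l(φ D) = l(D)`**. -/
theorem finrank_L_smul (φ : SemilinearAut K F) (D : Divisor K F) :
    Module.finrank K (L (φ • D)) = Module.finrank K (L D) := by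
  have h := rank_eq_of_equiv_equiv (SemilinearAut.baseAut φ) (LsmulEquiv φ D)
    (SemilinearAut.baseAut φ).bijective (LsmulEquiv_smul φ D)
  unfold Module.finrank
  rw [h]

/-- **The canonical class is invariant under semilinear automorphisms.** -/
theorem canonical_sub_smul_principal (H : FFHyp K F) {g : ℕ} {W : Divisor K F}
    (hW : IsCanonical g W) (φ : SemilinearAut K F) :
    W - φ • W ∈ Divisor.principal (K := K) (F := F) :=
  canonical_unique H hW (by rw [SemilinearAut.degree_smul, hW.1])
    (by rw [finrank_L_smul, hW.2.1])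

theorem isCanonical_smul (H : FFHyp K F) {g : ℕ} {W : Divisor K F}
    (hW : IsCanonical g W) (φ : SemilinearAut K F) : IsCanonical g (φ • W) :=
  isCanonical_of_principal_sub H hW (canonical_sub_smul_principal H hW φ)

end Fermat.Agent.S27.RR.H52
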